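/-
S44, node X, block COVER, sub-block C-HOR (sub-architect helper59).  Leaves HOR-A3, HOR-A5.

* `exists_placeUnder` : a place of `F'` restricts to a place of `F` when `F'` is algebraic over `F`.
* `isFF1_of_finite`   : a finite extension of a function field in one variable is one.
-/
import Mathlib
import Fermat.Agent.S18.Descent.Horizontal
import Fermat.Agent.S18.Descent.FF1

set_option autoImplicit false
set_option linter.style.haveILetI false

noncomputable section

namespace Fermat.Agent.S44.X.Cover.Hor

open AlgebraicCurve Fermat.Agent.S18.Descent Fermat.Agent.S24.FF IntermediateField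

/-- HOR-A3.  (`V := v.toValuationSubring.comap ι` contains `K`; if `V = ⊤` then `ι F ⊆ O_v`, and
`O_v` is integrally closed, so `O_v = ⊤`.  Then `placeOfVS`.) -/
theorem exists_placeUnder {K F F' : Type*} [Field K] [Field F] [Field F'] [Algebra K F]
    [Algebra K F'] [CharZero K] [IsFF1 K F] (ι : F →+* F')
    (hcomp : ∀ a : K, ι (algebraMap K F a) = algebraMap K F' a)
    (halg : ∀ z : F', ι.IsIntegralElem z) (v : Place K F') :
    ∃ w : Place K F, PlaceOver ι v w := by
  let V : ValuationSubring F := v.toValuationSubring.comap ι
  have hK : ∀ a : K, algebraMap K F a ∈ V := fun a => by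
    show ι (algebraMap K F a) ∈ v.toValuationSubring
    rw [hcomp]
    exact v.algebraMap_mem' a
  have hV : V ≠ ⊤ := by
    intro htop
    apply v.ne_top'
    refine SetLike.ext fun z => ⟨fun _ => ValuationSubring.mem_top z, fun _ => ?_⟩
    have hmem : ∀ f : F, ι f ∈ v.toValuationSubring.toSubring := fun f => by
      have : f ∈ V := htop ▸ ValuationSubring.mem_top f
      exact this
    letI : Algebra F F' := ι.toAlgebra
    letI : Algebra F v.toValuationSubring :=
      (ι.codRestrict v.toValuationSubring.toSubring hmem).toAlgebra
    haveI : IsScalarTower F v.toValuationSubring F' := IsScalarTower.of_algebraMap_eq fun _ => rfl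
    have hz : IsIntegral F z := halg z
    have hx : IsIntegral v.toValuationSubring z := hz.tower_top
    obtain ⟨y, hy⟩ := IsIntegrallyClosed.isIntegral_iff.mp hx
    exact hy ▸ y.2
  exact ⟨placeOfVS V hK hV, fun f => Iff.rfl⟩

/-- HOR-A5.  (If `x : F` is transcendental over `K` then `E` is not algebraic over `K`; take
`y : E` transcendental: `E` is finite over `K(y)`, so `F` is finite over `K(y)`;
`IsFF1.of_exists`.) -/
theorem isFF1_of_finite (K E F : Type*) [Field K] [Field E] [Field F] [Algebra K E] [Algebra E F]
    [Algebra K F] [IsScalarTower K E F] [IsFF1 K E] [FiniteDimensional E F] : IsFF1 K F := by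
  by_cases h : ∃ y : E, Transcendental K y
  · obtain ⟨y, hy⟩ := h
    haveI := IsFF1.finite y hy
    have e1 : Algebra.EssFiniteType K K⟮y⟯ := by
      rw [IntermediateField.essFiniteType_iff]
      have := IntermediateField.fg_adjoin_finset (F := K) ({y} : Finset E)
      simpa using this
    have e2 : Algebra.EssFiniteType K E := Algebra.EssFiniteType.comp K K⟮y⟯ E
    have e3 : Algebra.EssFiniteType K F := Algebra.EssFiniteType.comp K E F
    have htr : Algebra.trdeg K F ≤ 1 := by
      have h1 := lift_trdeg_add_eq K E F
      rw [trdeg_eq_zero (R := E) (A := F), Cardinal.lift_zero, add_zero] at h1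
      have h2 : Algebra.trdeg K E ≤ 1 := trdeg_le_one_of_isFF1
      rw [← Cardinal.lift_le_one_iff, ← h1, Cardinal.lift_le_one_iff]
      exact h2
    exact isFF1_of_trdeg_le_one htr e3
  · have : Algebra.IsAlgebraic K E := ⟨fun x => by
      by_contra hx
      exact h ⟨x, hx⟩⟩
    have : Algebra.IsAlgebraic K F := Algebra.IsAlgebraic.trans K E F
    exact ⟨fun x hx => absurd (Algebra.IsAlgebraic.isAlgebraic x) hx⟩

end Fermat.Agent.S44.X.Cover.Hor

end
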