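/-
S44, node X, block COVER, sub-block C-HOR (sub-architect helper59).  Leaf HOR-C1.

The field `F̄_Y = FYb L W = FN L (W)`, `W ^ p = U ∈ FN L`: every element is a polynomial of degree
`< p` in `W` with coefficients in `FN L`; hence `F̄_Y` is integral over `FN L` and a function field in
one variable over `ℚ̄`.
-/
import Mathlib
import Fermat.Agent.S24.Export.Ramification
import Fermat.Agent.S44.X.Cover.Defs
import Fermat.Agent.S44.X.Cover.Hor.Under

set_option autoImplicit false

noncomputable section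

namespace Fermat.Agent.S44.X.Cover.Hor

open ModularCurve AlgebraicCurve Fermat.Agent.S24 Fermat.Agent.GAL Fermat.Agent.S24.FF

/-- `W` as an element of `F̄_Y`. -/
def Wb (L : ℕ) (W : LaurentSeries Kbar) : FYb L W := ⟨W, W_mem_FYb L W⟩

/-- the inclusion `FN L → F̄_Y` as a ring homomorphism. -/
abbrev ιb (L : ℕ) (W : LaurentSeries Kbar) : FN L →+* FYb L W := (inclFYb L W).toRingHom

theorem coe_Wb (L : ℕ) (W : LaurentSeries Kbar) :
    ((Wb L W : FYb L W) : LaurentSeries Kbar) = W := rfl

/-- (NB: do not prove this by `rfl`: the kernel times out.) -/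
theorem coe_ιb (L : ℕ) (W : LaurentSeries Kbar) (f : FN L) :
    ((ιb L W f : FYb L W) : LaurentSeries Kbar) = (f : LaurentSeries Kbar) :=
  IntermediateField.coe_inclusion (FN_le_FYb L W) f

theorem Wb_pow (L p : ℕ) (U : FN L) (W : LaurentSeries Kbar)
    (hW : W ^ p = (U : LaurentSeries Kbar)) : Wb L W ^ p = ιb L W U := by
  apply Subtype.ext
  rw [coe_ιb, ← hW]
  exact SubmonoidClass.coe_pow _ _

theorem ιb_algebraMap (L : ℕ) (W : LaurentSeries Kbar) (a : Kbar) :
    ιb L W (algebraMap Kbar (FN L) a) = algebraMap Kbar (FYb L W) a :=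
  (inclFYb L W).commutes a

/-- abstract form of `exists_repr`. -/
theorem repr_abs {k M : Type*} [Field k] [Field M] [Algebra k M] (E : IntermediateField k M)
    (p : ℕ) (hp : p ≠ 0) (U : E) (W : M) (hW : W ^ p = (U : M)) (z : M)
    (hz : z ∈ IntermediateField.adjoin k ((E : Set M) ∪ {W})) :
    ∃ c : ℕ → E, z = ∑ i ∈ Finset.range p, (c i : M) * W ^ i := by
  classical
  set P : Polynomial E := Polynomial.X ^ p - Polynomial.C U with hP
  have hmonic : P.Monic := Polynomial.monic_X_pow_sub_C U hp
  have hroot : Polynomial.aeval W P = 0 := by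
    rw [hP, map_sub, map_pow, Polynomial.aeval_X, Polynomial.aeval_C, hW]
    exact sub_self _
  have hint : IsIntegral E W := ⟨P, hmonic, hroot⟩
  have hle : IntermediateField.adjoin k ((E : Set M) ∪ {W}) ≤
      (IntermediateField.adjoin E {W}).restrictScalars k := by
    rw [IntermediateField.adjoin_le_iff]
    rintro x (hx | hx)
    · exact (IntermediateField.adjoin E {W}).algebraMap_mem (⟨x, hx⟩ : E)
    · rw [Set.mem_singleton_iff] at hx
      subst hx
      exact IntermediateField.mem_adjoin_simple_self E x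
  have h1 : z ∈ (IntermediateField.adjoin E {W}).toSubalgebra := hle hz
  rw [IntermediateField.adjoin_simple_toSubalgebra_of_isAlgebraic hint.isAlgebraic,
    Algebra.adjoin_singleton_eq_range_aeval] at h1
  obtain ⟨f, rfl⟩ := h1
  refine ⟨fun i => (f %ₘ P).coeff i, ?_⟩
  have h2 : Polynomial.aeval W f = Polynomial.aeval W (f %ₘ P) :=
    (Polynomial.aeval_modByMonic_eq_self_of_root hroot).symm
  have hdeg : (f %ₘ P).natDegree < p := by
    have h3 := Polynomial.natDegree_modByMonic_lt f hmonic (by
      intro h1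
      have h4 : P.natDegree = p := Polynomial.natDegree_X_pow_sub_C
      rw [h1, Polynomial.natDegree_one] at h4
      exact hp h4.symm)
    rwa [Polynomial.natDegree_X_pow_sub_C] at h3
  show Polynomial.aeval W f = _
  rw [h2, Polynomial.aeval_eq_sum_range' hdeg]
  refine Finset.sum_congr rfl fun i _ => ?_
  rw [Algebra.smul_def]
  rfl

/-- (The set of the sums is a subring of `ℚ̄((q))` containing `FN L` and `W`, finite dimensional over
`FN L`, hence a field.  E.g.: `W` is integral over `FN L`, so `(FN L)⟮W⟯ = (FN L)[W]`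
(`IntermediateField.adjoin_simple_toSubalgebra_of_isAlgebraic`,
`Algebra.adjoin_singleton_eq_range_aeval`), reduce the polynomial modulo the monic `X ^ p - C U`
(`Polynomial.modByMonic`), and `FYb L W ≤ ((FN L)⟮W⟯).restrictScalars ℚ̄` by
`IntermediateField.adjoin_le_iff`.) -/
theorem exists_repr (L p : ℕ) (hp : p ≠ 0) (U : FN L) (W : LaurentSeries Kbar)
    (hW : W ^ p = (U : LaurentSeries Kbar)) (z : FYb L W) :
    ∃ c : ℕ → FN L, z = ∑ i ∈ Finset.range p, ιb L W (c i) * Wb L W ^ i := by
  obtain ⟨c, hc⟩ := repr_abs (modularFunctionFieldBar L) p hp U W hW (z : LaurentSeries Kbar) z.2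
  refine ⟨c, Subtype.ext ?_⟩
  rw [hc, AddSubmonoidClass.coe_finsetSum]
  refine Finset.sum_congr rfl fun i _ => ?_
  rw [MulMemClass.coe_mul, coe_ιb, SubmonoidClass.coe_pow, coe_Wb]

/-- (From `exists_repr`: `FYb L W` is a finite module over `FN L` along `ιb`.) -/
theorem isIntegralElem_ιb (L p : ℕ) (hp : p ≠ 0) (U : FN L) (W : LaurentSeries Kbar)
    (hW : W ^ p = (U : LaurentSeries Kbar)) (z : FYb L W) : (ιb L W).IsIntegralElem z := by
  have hWb : (ιb L W).IsIntegralElem (Wb L W) := by
    refine ⟨Polynomial.X ^ p - Polynomial.C U, Polynomial.monic_X_pow_sub_C U hp, ?_⟩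
    rw [Polynomial.eval₂_sub, Polynomial.eval₂_pow, Polynomial.eval₂_X, Polynomial.eval₂_C,
      Wb_pow L p U W hW, sub_self]
  have hpow : ∀ i : ℕ, (ιb L W).IsIntegralElem (Wb L W ^ i) := by
    intro i
    induction i with
    | zero =>
      rw [pow_zero]
      exact (ιb L W).isIntegralElem_one
    | succ i ih =>
      rw [pow_succ]
      exact RingHom.IsIntegralElem.mul _ ih hWb
  obtain ⟨c, rfl⟩ := exists_repr L p hp U W hW z
  refine Finset.sum_induction _ (fun y => (ιb L W).IsIntegralElem y)
    (fun a b ha hb => RingHom.IsIntegralElem.add _ ha hb) (ιb L W).isIntegralElem_zero ?_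
  intro i _
  exact RingHom.IsIntegralElem.mul _ ((ιb L W).isIntegralElem_map) (hpow i)

/-- (From `exists_repr`, `isFF1_of_finite` with `letI := (ιb L W).toAlgebra`, and
`S24.Export.isFF1 L : IsFF1 Kbar (FN L)`.) -/
theorem isFF1_FYb (L p : ℕ) [NeZero L] (hp : p ≠ 0) (U : FN L) (W : LaurentSeries Kbar)
    (hW : W ^ p = (U : LaurentSeries Kbar)) : IsFF1 Kbar (FYb L W) := by
  classical
  have hff : IsFF1 Kbar (FN L) := S24.Export.isFF1 L
  let alg : Algebra (FN L) (FYb L W) := algFYb L W
  let mod : Module (FN L) (FYb L W) := alg.toModule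
  have tower : IsScalarTower Kbar (FN L) (FYb L W) := towerFYb L W
  have hfin : FiniteDimensional (FN L) (FYb L W) := by
    refine ⟨⟨(Finset.range p).image fun i => Wb L W ^ i, ?_⟩⟩
    rw [eq_top_iff]
    intro z _
    obtain ⟨c, rfl⟩ := exists_repr L p hp U W hW z
    refine Submodule.sum_mem _ fun i hi => ?_
    have h1 : ιb L W (c i) * Wb L W ^ i = c i • Wb L W ^ i := by
      rw [Algebra.smul_def, algebraMap_FYb_eq]
    rw [h1]
    refine Submodule.smul_mem _ _ (Submodule.subset_span ?_)
    rw [Finset.coe_image]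
    exact ⟨i, hi, rfl⟩
  exact isFF1_of_finite Kbar (FN L) (FYb L W)

end Fermat.Agent.S44.X.Cover.Hor

end
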