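/-
S44, node X, block COVER, sub-block C-HOR (sub-architect helper59).

`PL.HorE1` (the form of horizontal unramifiedness consumed by `PL.pl_main'`) from "orders are
preserved at all places".
-/
import Mathlib
import Fermat.Agent.S18.Descent.Horizontal
import Fermat.Agent.S44.X.PL.Defs2

set_option autoImplicit false

noncomputable section

namespace Fermat.Agent.S44.X.Cover.Hor

open AlgebraicCurve Fermat.Agent.S18 Fermat.Agent.S18.Descent Fermat.Agent.S24.FF

section One

variable {K F : Type*} [Field K] [Field F] [Algebra K F]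

theorem e1_ord_eq_one_of_isUnif (w : Place K F) {t : F} (h : IsUnif w.toValuationSubring t) :
    w.ord t = 1 := by
  obtain ⟨π, hπ⟩ := exists_ord_eq_one w
  have hπ0 : π ≠ 0 := ne_zero_of_ord_ne_zero w (by omega)
  have ht0 : t ≠ 0 := by
    rintro rfl
    exact h.inv_notMem (by simp [zero_mem])
  obtain ⟨n, h1, h2⟩ := h.exists_zpow π hπ0
  have h3 := ord_nonneg_of_mem w h1
  have h4 := ord_nonneg_of_mem w h2
  rw [w.ord_inv] at h4
  rw [div_eq_mul_inv, w.ord_mul hπ0 (inv_ne_zero (zpow_ne_zero n ht0)), w.ord_inv, w.ord_zpow,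
    hπ] at h3 h4
  have h5 : n * w.ord t = 1 := by omega
  have h6 : 0 ≤ w.ord t := ord_nonneg_of_mem w h.mem
  have h7 : w.ord t ∣ 1 := ⟨n, by rw [← h5]; ring⟩
  exact Int.eq_one_of_dvd_one h6 h7

theorem e1_isUnif_of_ord_eq_one (w : Place K F) {t : F} (h : w.ord t = 1) :
    IsUnif w.toValuationSubring t := by
  have ht0 : t ≠ 0 := ne_zero_of_ord_ne_zero w (by omega)
  refine ⟨mem_of_ord_nonneg w (by omega), ?_, ?_⟩
  · intro h1
    have := ord_nonneg_of_mem w h1
    rw [w.ord_inv] at this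
    omega
  · intro y hy
    have h0 : w.ord (y / t ^ (w.ord y)) = 0 := by
      rw [div_eq_mul_inv, w.ord_mul hy (inv_ne_zero (zpow_ne_zero _ ht0)), w.ord_inv, w.ord_zpow, h]
      ring
    refine ⟨w.ord y, mem_of_ord_nonneg w h0.ge, mem_of_ord_nonneg w ?_⟩
    rw [w.ord_inv, h0]
    simp

end One

variable {K E F : Type*} [Field K] [Field E] [Field F] [Algebra K E] [Algebra E F] [Algebra K F]
  [IsScalarTower K E F] [CharZero K]

theorem horE1_of_places [IsFF1 K E] [IsFF1 K F]
    (h : ∀ (w' : Place K F) (w : Place K E), PlaceOver (algebraMap E F) w' w →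
      ∀ f : E, w'.ord (algebraMap E F f) = w.ord f) : PL.HorE1 K E F := by
  intro W t hK ht
  have hW : W ≠ ⊤ := by
    rintro rfl
    exact ht.inv_notMem (ValuationSubring.mem_top _)
  obtain ⟨w', hw'⟩ := exists_placeOver (RingHom.id K) (algebraMap E F)
    (fun a => (IsScalarTower.algebraMap_apply K E F a).symm)
    (fun x => ⟨Polynomial.X - Polynomial.C x, Polynomial.monic_X_sub_C x, by simp⟩)
    (placeOfVS W hK hW)
  refine ⟨w'.toValuationSubring, hw', e1_isUnif_of_ord_eq_one w' ?_⟩
  rw [h w' _ hw' t]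
  exact e1_ord_eq_one_of_isUnif (placeOfVS W hK hW) ht

end Fermat.Agent.S44.X.Cover.Hor

end
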