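/-
S44, node X, block COVER, sub-block C-HOR (sub-architect helper59).  Leaf HOR-A2.

A Kummer extension `F' = F(W)`, `W ^ n = U`, of function fields over a field `K` of characteristic
zero is unramified at every place `w` of `F` with `n ∣ ord_w U`.

Proof: clone of `BAD.Bridge.PlaceOver.ord_eq_of_span` (BAD/Bridge/Unram.lean), on top of the landed
`BAD.Bridge.Unram.core`.  Let `t` be a uniformiser of `w`, `ord_w U = n k`, `u₁ = U t^(-n k)` (a unit
of `O_w`), `W₁ = W ι(t)^(-k)`, so `W₁ ^ n = ι u₁`, `W₁ ∈ O_v`.  `ev : O_w[X] → O_v` = evaluation at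
`W₁`; `X ^ n - C u₁` is killed by `ev` and separable modulo the maximal ideal (the residue field
contains `K`, so it has characteristic zero).  A uniformiser `t'` of `v` is `∑ ι(c i) W ^ i`, so
`ι(t) ^ N t' = ev β` for `N` large; `Unram.core` gives `e ∣ N e + 1`.
-/
import Mathlib
import Fermat.Agent.BAD.Bridge.Unram

set_option autoImplicit false

noncomputable section

namespace Fermat.Agent.S44.X.Cover.Hor

open AlgebraicCurve Fermat.Agent.S18.Descent Fermat.Agent.S24.FF Polynomial

theorem ord_eq_of_kummer {K F F' : Type*} [Field K] [Field F] [Field F'] [Algebra K F]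
    [Algebra K F'] [CharZero K] (ι : F →+* F') (W : F') (n : ℕ) (hn : n ≠ 0) (U : F) (hU : U ≠ 0)
    (hW : W ^ n = ι U)
    (hgen : ∀ z : F', ∃ c : ℕ → F, z = ∑ i ∈ Finset.range n, ι (c i) * W ^ i)
    {v : Place K F'} {w : Place K F} (h : PlaceOver ι v w) (hdvd : (n : ℤ) ∣ w.ord U) (f : F) :
    v.ord (ι f) = w.ord f := by
  classical
  obtain ⟨e, hepos, hmul⟩ := h.exists_ord_eq_mul
  suffices he1 : e = 1 by rw [hmul, he1, one_mul]
  -- uniformisers
  obtain ⟨t, ht⟩ := IsDiscreteValuationRing.exists_irreducible w.toValuationSubring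
  have hwt : w.ord (t : F) = 1 := w.ord_coe_irreducible ht
  have hvt : v.ord (ι (t : F)) = e := by rw [hmul, hwt, mul_one]
  have htF0 : (t : F) ≠ 0 := ne_zero_of_ord_ne_zero w (by rw [hwt]; exact one_ne_zero)
  have hιt0 : ι (t : F) ≠ 0 := (map_ne_zero ι).2 htF0
  obtain ⟨t', ht'⟩ := exists_ord_eq_one v
  have ht'0 : t' ≠ 0 := ne_zero_of_ord_ne_zero v (by rw [ht']; exact one_ne_zero)
  obtain ⟨k, hk⟩ := hdvd
  -- the unit `u₁` and its root `W₁`
  obtain ⟨u₁, hu₁⟩ : ∃ u₁ : F, u₁ = U * (t : F) ^ (-((n : ℤ) * k)) := ⟨_, rfl⟩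
  have hu₁0 : u₁ ≠ 0 := by
    rw [hu₁]
    exact mul_ne_zero hU (zpow_ne_zero _ htF0)
  have hu₁ord : w.ord u₁ = 0 := by
    rw [hu₁, w.ord_mul hU (zpow_ne_zero _ htF0), w.ord_zpow, hwt, hk]
    ring
  have hu₁mem : u₁ ∈ w.toValuationSubring := mem_of_ord_nonneg w hu₁ord.ge
  obtain ⟨W₁, hW₁⟩ : ∃ W₁ : F', W₁ = W * (ι (t : F)) ^ (-k) := ⟨_, rfl⟩
  have hW₁n : W₁ ^ n = ι u₁ := by
    rw [hW₁, mul_pow, hW, hu₁, map_mul, map_zpow₀, ← zpow_natCast (ι (t : F) ^ (-k)) n, ← zpow_mul]
    congr 2
    ring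
  have hW₁ord : v.ord W₁ = 0 := by
    have h1 : (n : ℤ) * v.ord W₁ = 0 := by rw [← ord_pow, hW₁n, hmul, hu₁ord, mul_zero]
    rcases mul_eq_zero.1 h1 with h2 | h2
    · exact absurd (by exact_mod_cast h2) hn
    · exact h2
  have hW₁mem : W₁ ∈ v.toValuationSubring := mem_of_ord_nonneg v hW₁ord.ge
  have hWi : ∀ i : ℕ, ι ((t : F) ^ (k * (i : ℤ))) * W₁ ^ i = W ^ i := by
    intro i
    rw [hW₁, mul_pow, map_zpow₀, ← zpow_natCast (ι (t : F) ^ (-k)) i, ← zpow_mul, mul_left_comm,
      ← zpow_add₀ hιt0]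
    simp
  -- `t'` as a combination
  obtain ⟨c, hc⟩ := hgen t'
  obtain ⟨g, hg⟩ : ∃ g : ℕ → F, ∀ i, g i = c i * (t : F) ^ (k * (i : ℤ)) := ⟨_, fun _ => rfl⟩
  -- clearing denominators
  set N : ℕ := (Finset.range n).sup (fun i => (-(w.ord (g i))).toNat) with hN
  have hNmem : ∀ i ∈ Finset.range n, (t : F) ^ N * g i ∈ w.toValuationSubring := by
    intro i hi
    rcases eq_or_ne (g i) 0 with h0 | hg0
    · rw [h0, mul_zero]; exact zero_mem _
    apply mem_of_ord_nonneg w
    rw [w.ord_mul (pow_ne_zero _ htF0) hg0, ord_pow, hwt, mul_one]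
    have h1 : (-(w.ord (g i))).toNat ≤ N :=
      Finset.le_sup (f := fun i => (-(w.ord (g i))).toNat) hi
    have h2 := Int.self_le_toNat (-(w.ord (g i)))
    omega
  -- the evaluation map
  let ιO : w.toValuationSubring →+* v.toValuationSubring :=
    (ι.comp w.toValuationSubring.subtype).codRestrict v.toValuationSubring.toSubring
      (fun a => (h (a : F)).2 a.2)
  let Wv : v.toValuationSubring := ⟨W₁, hW₁mem⟩
  let ev : (w.toValuationSubring)[X] →+* v.toValuationSubring := Polynomial.eval₂RingHom ιO Wv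
  have hevC : ∀ a : w.toValuationSubring, ((ev (C a) : v.toValuationSubring) : F') = ι (a : F) := by
    intro a
    show ((Polynomial.eval₂ ιO Wv (C a) : v.toValuationSubring) : F') = _
    rw [Polynomial.eval₂_C]
    rfl
  have hevX : ((ev X : v.toValuationSubring) : F') = W₁ := by
    show ((Polynomial.eval₂ ιO Wv X : v.toValuationSubring) : F') = _
    rw [Polynomial.eval₂_X]
  -- the separable polynomial
  let uO : w.toValuationSubring := ⟨u₁, hu₁mem⟩
  have hf0 : ev (X ^ n - C uO) = 0 := by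
    apply Subtype.ext
    rw [map_sub, map_pow]
    show ((ev X : v.toValuationSubring) : F') ^ n - ((ev (C uO) : v.toValuationSubring) : F') = 0
    rw [hevX, hevC, hW₁n, sub_self]
  have hres0 : IsLocalRing.residue w.toValuationSubring uO ≠ 0 := by
    rw [Ne, IsLocalRing.residue_eq_zero_iff, Fermat.Agent.BAD.Bridge.Unram.mem_maximalIdeal_iff]
    rintro (h0 | h0)
    · exact hu₁0 h0
    · have : w.ord u₁ = 0 := hu₁ord
      have h1 : 0 < w.ord u₁ := h0
      omega
  have hnres : ((n : ℕ) : IsLocalRing.ResidueField w.toValuationSubring) ≠ 0 := by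
    have hinj : Function.Injective ((IsLocalRing.residue w.toValuationSubring).comp
        (algebraMap K w.toValuationSubring)) := RingHom.injective _
    have h1 : ((IsLocalRing.residue w.toValuationSubring).comp
        (algebraMap K w.toValuationSubring)) (n : K) =
        ((n : ℕ) : IsLocalRing.ResidueField w.toValuationSubring) := map_natCast _ n
    rw [← h1]
    intro h2
    rw [← map_zero ((IsLocalRing.residue w.toValuationSubring).comp
        (algebraMap K w.toValuationSubring))] at h2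
    exact hn (by exact_mod_cast hinj h2)
  have hsep : ((X ^ n - C uO : (w.toValuationSubring)[X]).map
      (IsLocalRing.residue w.toValuationSubring)).Separable := by
    rw [Polynomial.map_sub, Polynomial.map_pow, Polynomial.map_X, Polynomial.map_C]
    exact Polynomial.separable_X_pow_sub_C _ hnres hres0
  have hcore := Fermat.Agent.BAD.Bridge.Unram.core v ev ht hf0 hsep (by rw [hevC]; exact hvt) hepos
  -- the polynomial representing `ι t ^ N * t'`
  let gO : ℕ → w.toValuationSubring := fun i =>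
    if hg : (t : F) ^ N * g i ∈ w.toValuationSubring then ⟨_, hg⟩ else 0
  let β : (w.toValuationSubring)[X] := ∑ i ∈ Finset.range n, C (gO i) * X ^ i
  have hβ : ((ev β : v.toValuationSubring) : F') = ι (t : F) ^ N * t' := by
    have h1 : ((ev β : v.toValuationSubring) : F') =
        ∑ i ∈ Finset.range n, ι ((t : F) ^ N * g i) * W₁ ^ i := by
      show v.toValuationSubring.subtype (ev β) = _
      rw [map_sum, map_sum]
      refine Finset.sum_congr rfl fun i hi => ?_
      rw [map_mul, map_mul, map_pow, map_pow]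
      show ((ev (C (gO i)) : v.toValuationSubring) : F') * ((ev X : v.toValuationSubring) : F') ^ i
        = _
      rw [hevC, hevX]
      congr 2
      simp only [gO, dif_pos (hNmem i hi)]
    rw [h1, hc, Finset.mul_sum]
    refine Finset.sum_congr rfl fun i _ => ?_
    rw [← hWi i, hg i, map_mul, map_mul, map_pow]
    ring
  have hβ0 : ((ev β : v.toValuationSubring) : F') ≠ 0 := by
    rw [hβ]
    exact mul_ne_zero (pow_ne_zero _ hιt0) ht'0
  have hdvd := hcore β hβ0
  rw [hβ, v.ord_mul (pow_ne_zero _ hιt0) ht'0, ord_pow, hvt, ht'] at hdvd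
  have h1 : e ∣ 1 := (Int.dvd_add_right (Dvd.intro_left _ rfl)).1 hdvd
  exact Int.eq_one_of_dvd_one hepos.le h1

end Fermat.Agent.S44.X.Cover.Hor

end
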