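/-
S44, node X, block COVER, sub-block C-HOR (sub-architect helper59).  Leaf HOR-A1.

`F / E` a finite extension of function fields in one variable over `K` (characteristic zero).  If
every place of `F` is unramified over `E` (orders are preserved), then `F / E` is horizontally
unramified in the sense of `PL.HorUnr` (trivial codifferent at every valuation ring of `E`
containing `K`).

Proof: `W = ⊤` is trivial (`F / E` is algebraic).  Otherwise `W` is a discrete valuation ring
(`S18.Descent.placeOfVS`); apply `GoodRed.isIntegral_pow_mul_pow_of_mem_traceDual` with `A := W`,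
`B := integralClosure W F`, `g := 1`: it gives `y ^ n` integral, hence `y` integral.  The hypothesis
`hunr` (no prime `P` of `B` with `P ^ 2 ∣ 𝔪_W B`) is checked as in
`KLB/App/TameOfUnram.lean` (`tameBound_adjoin`): the valuation ring of `P` is a place `w'` of `F`
above `w`, a uniformiser of `w` has order one at `w'`, so it does not lie in `P ^ 2`.
-/
import Mathlib
import Fermat.Agent.S18.Descent.Horizontal
import Fermat.Agent.Lib.GoodRed.TameDual
import Fermat.Agent.S44.X.PL.Defs

set_option autoImplicit false

noncomputable section

namespace Fermat.Agent.S44.X.Cover.Hor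

open AlgebraicCurve Fermat.Agent.S18.Descent Fermat.Agent.S24.FF Fermat.Agent.KLB

open IsDedekindDomain in
/-- the valuation ring of a height one prime is not the whole field -/
theorem unrPlace_ne_top {F B : Type*} [Field F] [CommRing B] [IsDedekindDomain B] [Algebra B F]
    [IsFractionRing B F] (w : HeightOneSpectrum B) : (w.valuation F).valuationSubring ≠ ⊤ := by
  intro htop
  obtain ⟨π, hπ⟩ := w.valuation_exists_uniformizer F
  have h1 : π⁻¹ ∈ (w.valuation F).valuationSubring := htop ▸ ValuationSubring.mem_top _
  rw [Valuation.mem_valuationSubring_iff, map_inv₀, hπ, ← WithZero.exp_neg, neg_neg,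
    ← WithZero.exp_zero, WithZero.exp_le_exp] at h1
  omega

/-- the case of the trivial valuation ring -/
theorem unrPlace_top {E F : Type*} [Field E] [Field F] [Algebra E F] [FiniteDimensional E F] :
    Unr (⊤ : ValuationSubring E).toSubring E F := by
  intro y _
  obtain ⟨p, hp, hpy⟩ := Algebra.IsIntegral.isIntegral (R := E) y
  let f : E →+* (⊤ : ValuationSubring E).toSubring :=
    (RingHom.id E).codRestrict _ fun a => ValuationSubring.mem_top a
  refine ⟨p.map f, hp.map f, ?_⟩
  rw [Polynomial.eval₂_map]
  exact hpy

open IsDedekindDomain in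
/-- the case of a discrete valuation ring -/
theorem unrPlace_dvr {K E F : Type*} [Field K] [Field E] [Field F] [Algebra K E] [Algebra E F]
    [Algebra K F] [IsScalarTower K E F] [CharZero K] [IsFF1 K E] [IsFF1 K F]
    [FiniteDimensional E F]
    (h : ∀ (w' : Place K F) (w : Place K E), PlaceOver (algebraMap E F) w' w →
      ∀ f : E, w'.ord (algebraMap E F f) = w.ord f)
    (W : ValuationSubring E) (hK : ∀ a : K, algebraMap K E a ∈ W) (hW : W ≠ ⊤) :
    Unr W.toSubring E F := by
  set w : Place K E := placeOfVS W hK hW with hw
  set R : Subring E := W.toSubring with hR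
  have : IsPrincipalIdealRing R := w.isPrincipalIdealRing'
  have : IsFractionRing R E := inferInstanceAs (IsFractionRing W E)
  have : IsLocalRing R := inferInstanceAs (IsLocalRing W)
  have : CharZero E := charZero_of_injective_algebraMap (algebraMap K E).injective
  have : IsDedekindDomain (integralClosure R F) := integralClosure.isDedekindDomain R E F
  have : IsFractionRing (integralClosure R F) F :=
    integralClosure.isFractionRing_of_finite_extension E F
  set B := integralClosure R F with hB
  intro y hy
  have hn : 0 < Module.finrank E F := Module.finrank_pos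
  have key := GoodRed.isIntegral_pow_mul_pow_of_mem_traceDual R E (L := F) (B := B) ?_ 1
    one_ne_zero ?_ y ?_
  · rw [map_one, one_pow, mul_one] at key
    exact IsIntegral.of_pow hn key
  · intro p hp
    have : Nontrivial (R ⧸ p) := Ideal.Quotient.nontrivial_iff.mpr hp.ne_top
    let φ : K →+* R ⧸ p := (Ideal.Quotient.mk p).comp ((algebraMap K E).codRestrict R hK)
    exact charZero_of_injective_ringHom φ.injective
  · intro P hP hP0 _ hdvd
    let wP : HeightOneSpectrum B := ⟨P, hP, hP0⟩
    set V : ValuationSubring F := (wP.valuation F).valuationSubring with hV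
    have hBV : ∀ b : B, algebraMap B F b ∈ V := fun b => by
      rw [hV, Valuation.mem_valuationSubring_iff]
      exact wP.valuation_le_one b
    have hRV : ∀ r : R, algebraMap E F (r : E) ∈ V := fun r => hBV (algebraMap R B r)
    have hKV : ∀ a : K, algebraMap K F a ∈ V := fun a => by
      rw [IsScalarTower.algebraMap_apply K E F]
      exact hRV ⟨_, hK a⟩
    set w' : Place K F := placeOfVS V hKV (unrPlace_ne_top wP) with hw'
    -- the prime below `P` is the maximal ideal
    have hint : Algebra.IsIntegral R B := IsIntegralClosure.isIntegral_algebra R F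
    have hp0 : P.under R ≠ ⊥ := Ideal.under_ne_bot R hP0
    have hpmax : (P.under R).IsMaximal := Ideal.IsPrime.isMaximal inferInstance hp0
    have hpeq : P.under R = IsLocalRing.maximalIdeal R := IsLocalRing.eq_maximalIdeal hpmax
    have hlt : ∀ r : R, ¬ IsUnit r → wP.valuation F (algebraMap E F (r : E)) < 1 := by
      intro r hr
      have h1 : r ∈ P.under R := by
        rw [hpeq, IsLocalRing.mem_maximalIdeal, mem_nonunits_iff]
        exact hr
      have h2 : algebraMap B F (algebraMap R B r) = algebraMap E F (r : E) := rfl
      rw [← h2, wP.valuation_of_algebraMap, HeightOneSpectrum.intValuation_lt_one_iff_mem]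
      exact h1
    have hPO : PlaceOver (algebraMap E F) w' w := by
      intro f
      show algebraMap E F f ∈ V ↔ f ∈ W
      constructor
      · intro hf
        by_contra hfW
        have hfi : f⁻¹ ∈ W := (W.mem_or_inv_mem f).resolve_left hfW
        have hnu : ¬ IsUnit (⟨f⁻¹, hfi⟩ : R) := by
          intro hu
          obtain ⟨c, hc⟩ := isUnit_iff_exists_inv.mp hu
          have hc' : f⁻¹ * (c : E) = 1 := congrArg Subtype.val hc
          apply hfW
          have hf0 : f ≠ 0 := by
            rintro rfl
            exact hfW W.zero_mem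
          have : (c : E) = f := by
            field_simp at hc'
            exact hc'
          rw [← this]
          exact c.2
        have h3 := hlt ⟨f⁻¹, hfi⟩ hnu
        rw [hV, Valuation.mem_valuationSubring_iff] at hf
        have h4 : wP.valuation F (algebraMap E F f⁻¹) * wP.valuation F (algebraMap E F f) = 1 := by
          have hf0 : f ≠ 0 := by
            rintro rfl
            exact hfW W.zero_mem
          rw [← map_mul, ← map_mul, inv_mul_cancel₀ hf0, map_one, map_one]
        have h5 : wP.valuation F (algebraMap E F f⁻¹) * wP.valuation F (algebraMap E F f) < 1 :=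
          mul_lt_one_of_lt_of_le h3 hf
        exact absurd h4 h5.ne
      · intro hf
        exact hRV ⟨f, hf⟩
    obtain ⟨π, hπ⟩ := exists_ord_eq_one w
    have hπ' : w'.ord (algebraMap E F π) = 1 := by rw [h w' w hPO, hπ]
    obtain ⟨hπW, hπinv, -⟩ := generates_of_ord_eq_one w hπ
    obtain ⟨-, -, hgen⟩ := generates_of_ord_eq_one w' hπ'
    have hπ0 : algebraMap E F π ≠ 0 := by
      intro h0
      rw [h0] at hπ'
      simp at hπ'
    have hπnu : ¬ IsUnit (⟨π, hπW⟩ : R) := by
      intro hu
      obtain ⟨c, hc⟩ := isUnit_iff_exists_inv.mp hu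
      have hc' : π * (c : E) = 1 := congrArg Subtype.val hc
      apply hπinv
      rw [← eq_inv_of_mul_eq_one_right hc']
      exact c.2
    have hπP : (⟨π, hπW⟩ : R) ∈ P.under R := by
      rw [hpeq, IsLocalRing.mem_maximalIdeal, mem_nonunits_iff]
      exact hπnu
    have hπP2 : algebraMap R B ⟨π, hπW⟩ ∈ P ^ 2 :=
      Ideal.le_of_dvd hdvd (Ideal.mem_map_of_mem _ hπP)
    have hle2 : wP.valuation F (algebraMap E F π) ≤ WithZero.exp (-(2 : ℤ)) := by
      have h2 : algebraMap B F (algebraMap R B ⟨π, hπW⟩) = algebraMap E F π := rfl
      rw [← h2, wP.valuation_of_algebraMap]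
      exact (wP.intValuation_le_pow_iff_mem _ 2).mpr hπP2
    obtain ⟨ϖ, hϖ⟩ := wP.valuation_exists_uniformizer F
    have hϖV : ϖ ∈ V := by
      rw [hV, Valuation.mem_valuationSubring_iff, hϖ, ← WithZero.exp_zero, WithZero.exp_le_exp]
      omega
    have hϖinv : ϖ⁻¹ ∉ V := by
      rw [hV, Valuation.mem_valuationSubring_iff, map_inv₀, hϖ, ← WithZero.exp_neg, neg_neg,
        ← WithZero.exp_zero, WithZero.exp_le_exp]
      omega
    have h3 : ϖ / algebraMap E F π ∈ V := hgen ϖ hϖV hϖinv
    rw [hV, Valuation.mem_valuationSubring_iff, map_div₀, hϖ] at h3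
    have h4 : WithZero.exp (-1 : ℤ) ≤ wP.valuation F (algebraMap E F π) := by
      have h5 : 0 < wP.valuation F (algebraMap E F π) :=
        zero_lt_iff.mpr ((Valuation.ne_zero_iff _).mpr hπ0)
      rwa [div_le_one₀ h5] at h3
    have h6 := h4.trans hle2
    rw [WithZero.exp_le_exp] at h6
    omega
  · rw [Submodule.mem_traceDual]
    intro a ha
    obtain ⟨b, rfl⟩ := Submodule.mem_one.mp ha
    have h1 : IsIntegral R (Algebra.trace E F (y * algebraMap B F b)) := hy _ b.2
    exact IsIntegrallyClosed.isIntegral_iff.mp h1

theorem horUnr_of_places {K E F : Type*} [Field K] [Field E] [Field F] [Algebra K E] [Algebra E F]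
    [Algebra K F] [IsScalarTower K E F] [CharZero K] [IsFF1 K E] [IsFF1 K F]
    [FiniteDimensional E F]
    (h : ∀ (w' : Place K F) (w : Place K E), PlaceOver (algebraMap E F) w' w →
      ∀ f : E, w'.ord (algebraMap E F f) = w.ord f) : PL.HorUnr K E F := by
  intro W hK
  by_cases hW : W = ⊤
  · subst hW
    exact unrPlace_top
  · exact unrPlace_dvr h W hK hW

end Fermat.Agent.S44.X.Cover.Hor

end
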