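/-
S44, node X, block COVER, sub-block C-HOR (sub-architect helper59).  ABSTRACT ASSEMBLY.

A commutative square of function fields

    E  ──→  F          over `K`   (characteristic zero)
    │ΦE     │ΦF
    Eb ─ιb→ Fb         over `Kb`  (integral over `K`)

such that `Eb = Kb · ΦE E`, `Fb = Kb · ΦF F` (spans) and `Fb = Eb(W)`, `W ^ p = U`, the divisor of `U`
being divisible by `p`.  Then

* `horUnr_abs` : `F / E` is horizontally unramified;
* `horDiv_abs` : if `ΦF u = ιb U₁ * b ^ p` with the divisor of `U₁` divisible by `p`, then the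
                 divisor of `u` is divisible by `p`.
-/
import Mathlib
import Fermat.Agent.BAD.Bridge.Unram
import Fermat.Agent.S44.X.Cover.Hor.UnrPlace
import Fermat.Agent.S44.X.Cover.Hor.KummerOrd
import Fermat.Agent.S44.X.Cover.Hor.Under
import Fermat.Agent.S44.X.Cover.Hor.E1

set_option autoImplicit false

noncomputable section

namespace Fermat.Agent.S44.X.Cover.Hor

open AlgebraicCurve Fermat.Agent.S18.Descent Fermat.Agent.S24.FF Fermat.Agent.BAD.Bridge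

variable {K E F Kb Eb Fb : Type*} [Field K] [Field E] [Field F] [Field Kb] [Field Eb] [Field Fb]
  [Algebra K E] [Algebra E F] [Algebra K F] [IsScalarTower K E F]
  [Algebra Kb Eb] [Algebra Kb Fb] [CharZero K]

omit [IsScalarTower K E F] in
/-- orders are preserved along `E → F`. -/
theorem ord_eq_abs [IsFF1 Kb Eb] [IsFF1 Kb Fb] [CharZero Kb]
    (φ : K →+* Kb) (ΦE : E →+* Eb) (ΦF : F →+* Fb) (ιb : Eb →+* Fb)
    (hcE : ∀ a : K, ΦE (algebraMap K E a) = algebraMap Kb Eb (φ a))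
    (hcF : ∀ a : K, ΦF (algebraMap K F a) = algebraMap Kb Fb (φ a))
    (hcb : ∀ a : Kb, ιb (algebraMap Kb Eb a) = algebraMap Kb Fb a)
    (hsq : ∀ f : E, ΦF (algebraMap E F f) = ιb (ΦE f))
    (hint : φ.IsIntegral)
    (hspanE : Submodule.span Kb (Set.range ΦE : Set Eb) = ⊤)
    (hspanF : Submodule.span Kb (Set.range ΦF : Set Fb) = ⊤)
    (W : Fb) (p : ℕ) (hp : p ≠ 0) (U : Eb) (hU : U ≠ 0) (hW : W ^ p = ιb U)
    (hgen : ∀ z : Fb, ∃ c : ℕ → Eb, z = ∑ i ∈ Finset.range p, ιb (c i) * W ^ i)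
    (halg : ∀ z : Fb, ιb.IsIntegralElem z)
    (hkum : ∀ v : Place Kb Eb, (p : ℤ) ∣ v.ord U)
    (w' : Place K F) (w : Place K E) (h : PlaceOver (algebraMap E F) w' w) (f : E) :
    w'.ord (algebraMap E F f) = w.ord f := by
  obtain ⟨v', hv'⟩ := exists_placeOver φ ΦF hcF hint w'
  obtain ⟨v, hv⟩ := exists_placeUnder ιb hcb halg v'
  have hvw : PlaceOver ΦE v w := by
    intro g
    rw [← hv (ΦE g), ← hsq, hv' (algebraMap E F g), h g]
  rw [← PlaceOver.ord_eq_of_span φ ΦF hcF hint hspanF hv' (algebraMap E F f), hsq,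
    ord_eq_of_kummer ιb W p hp U hU hW hgen hv (hkum v) (ΦE f),
    PlaceOver.ord_eq_of_span φ ΦE hcE hint hspanE hvw f]

/-- **(H1), abstract form.** -/
theorem horUnr_abs [IsFF1 K E] [IsFF1 K F] [FiniteDimensional E F] [IsFF1 Kb Eb] [IsFF1 Kb Fb]
    [CharZero Kb]
    (φ : K →+* Kb) (ΦE : E →+* Eb) (ΦF : F →+* Fb) (ιb : Eb →+* Fb)
    (hcE : ∀ a : K, ΦE (algebraMap K E a) = algebraMap Kb Eb (φ a))
    (hcF : ∀ a : K, ΦF (algebraMap K F a) = algebraMap Kb Fb (φ a))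
    (hcb : ∀ a : Kb, ιb (algebraMap Kb Eb a) = algebraMap Kb Fb a)
    (hsq : ∀ f : E, ΦF (algebraMap E F f) = ιb (ΦE f))
    (hint : φ.IsIntegral)
    (hspanE : Submodule.span Kb (Set.range ΦE : Set Eb) = ⊤)
    (hspanF : Submodule.span Kb (Set.range ΦF : Set Fb) = ⊤)
    (W : Fb) (p : ℕ) (hp : p ≠ 0) (U : Eb) (hU : U ≠ 0) (hW : W ^ p = ιb U)
    (hgen : ∀ z : Fb, ∃ c : ℕ → Eb, z = ∑ i ∈ Finset.range p, ιb (c i) * W ^ i)
    (halg : ∀ z : Fb, ιb.IsIntegralElem z)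
    (hkum : ∀ v : Place Kb Eb, (p : ℤ) ∣ v.ord U) : PL.HorUnr K E F :=
  horUnr_of_places fun w' w h f =>
    ord_eq_abs φ ΦE ΦF ιb hcE hcF hcb hsq hint hspanE hspanF W p hp U hU hW hgen halg hkum w' w h f

/-- **(H1'), abstract form** (`PL.HorE1`, the form consumed by `PL.pl_main'`). -/
theorem horE1_abs [IsFF1 K E] [IsFF1 K F] [IsFF1 Kb Eb] [IsFF1 Kb Fb] [CharZero Kb]
    (φ : K →+* Kb) (ΦE : E →+* Eb) (ΦF : F →+* Fb) (ιb : Eb →+* Fb)
    (hcE : ∀ a : K, ΦE (algebraMap K E a) = algebraMap Kb Eb (φ a))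
    (hcF : ∀ a : K, ΦF (algebraMap K F a) = algebraMap Kb Fb (φ a))
    (hcb : ∀ a : Kb, ιb (algebraMap Kb Eb a) = algebraMap Kb Fb a)
    (hsq : ∀ f : E, ΦF (algebraMap E F f) = ιb (ΦE f))
    (hint : φ.IsIntegral)
    (hspanE : Submodule.span Kb (Set.range ΦE : Set Eb) = ⊤)
    (hspanF : Submodule.span Kb (Set.range ΦF : Set Fb) = ⊤)
    (W : Fb) (p : ℕ) (hp : p ≠ 0) (U : Eb) (hU : U ≠ 0) (hW : W ^ p = ιb U)
    (hgen : ∀ z : Fb, ∃ c : ℕ → Eb, z = ∑ i ∈ Finset.range p, ιb (c i) * W ^ i)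
    (halg : ∀ z : Fb, ιb.IsIntegralElem z)
    (hkum : ∀ v : Place Kb Eb, (p : ℤ) ∣ v.ord U) : PL.HorE1 K E F :=
  horE1_of_places fun w' w h f =>
    ord_eq_abs φ ΦE ΦF ιb hcE hcF hcb hsq hint hspanE hspanF W p hp U hU hW hgen halg hkum w' w h f

omit [Algebra K E] [Algebra E F] [IsScalarTower K E F] in
/-- **(H2), abstract form.** -/
theorem horDiv_abs [IsFF1 K F] [IsFF1 Kb Eb] [IsFF1 Kb Fb] [CharZero Kb]
    (φ : K →+* Kb) (ΦF : F →+* Fb) (ιb : Eb →+* Fb)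
    (hcF : ∀ a : K, ΦF (algebraMap K F a) = algebraMap Kb Fb (φ a))
    (hcb : ∀ a : Kb, ιb (algebraMap Kb Eb a) = algebraMap Kb Fb a)
    (hint : φ.IsIntegral)
    (hspanF : Submodule.span Kb (Set.range ΦF : Set Fb) = ⊤)
    (halg : ∀ z : Fb, ιb.IsIntegralElem z) (p : ℕ) (hp : p ≠ 0)
    (u : F) (hu : u ≠ 0) (U₁ : Eb) (hkum : ∀ v : Place Kb Eb, (p : ℤ) ∣ v.ord U₁) (b : Fb)
    (hub : ΦF u = ιb U₁ * b ^ p) : S36.BP.HorDiv K p u := by
  have hΦu : ΦF u ≠ 0 := (map_ne_zero ΦF).2 hu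
  have hU₁ : ιb U₁ ≠ 0 := fun h0 => hΦu (by rw [hub, h0, zero_mul])
  have hb : b ≠ 0 := by
    rintro rfl
    exact hΦu (by rw [hub, zero_pow hp, mul_zero])
  have hplaces : ∀ w' : Place K F, (p : ℤ) ∣ w'.ord u := by
    intro w'
    obtain ⟨v', hv'⟩ := exists_placeOver φ ΦF hcF hint w'
    obtain ⟨v, hv⟩ := exists_placeUnder ιb hcb halg v'
    obtain ⟨e, -, he⟩ := hv.exists_ord_eq_mul
    rw [← PlaceOver.ord_eq_of_span φ ΦF hcF hint hspanF hv' u, hub,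
      v'.ord_mul hU₁ (pow_ne_zero _ hb), ord_pow, he]
    exact dvd_add (Dvd.dvd.mul_left (hkum v) e) (Dvd.intro _ rfl)
  intro V hV
  obtain ⟨t, ht, h1, h2⟩ := divisibleDivVS_of_places p u hu hplaces V hV
  refine ⟨t, ht, le_antisymm ((V.valuation_le_one_iff _).2 h1) ?_⟩
  have h3 := (V.valuation_le_one_iff _).2 h2
  rw [map_inv₀] at h3
  have hne : u * t ^ p ≠ 0 := mul_ne_zero hu (pow_ne_zero p ht)
  exact (inv_le_one₀ (zero_lt_iff.2 ((map_ne_zero _).2 hne))).1 h3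

end Fermat.Agent.S44.X.Cover.Hor

end
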