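/-
S44, node X, block COVER, sub-block C-HOR (sub-architect helper59).  EXPORTS.

Everything over an abstract field `K` with `[Algebra ℚ K] [Algebra K Kbar]` (as `Cover/Defs.lean`).

* `horUnr` (H1) : `F_Y / F_X` is horizontally unramified;
* `horE1` (H1') : the same in the form `PL.HorE1`, consumed by `PL.pl_main'`;
* `horDiv` (H2) : the divisor of `u ∈ F_Y` is divisible by `p` if `u = U₁ b ^ p` over `ℚ̄` with `U₁` a
                  Kummer unit of `FN L`.

Inputs from block C-FIELD: finite dimensionality of `F_Y / F_X` and `hspan` (`F̄_Y = ℚ̄ · F_Y`).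
-/
import Mathlib
import Fermat.Agent.BAD.Bridge.Span
import Fermat.Agent.S44.X.Cover.Hor.Abs
import Fermat.Agent.S44.X.Cover.Hor.Repr

set_option autoImplicit false

noncomputable section

namespace Fermat.Agent.S44.X.Cover.Hor

open ModularCurve AlgebraicCurve Fermat.Agent.S24 Fermat.Agent.GAL Fermat.Agent.S24.FF
open Fermat.Agent.BAD.Bridge

section K

variable (K : Type) [Field K] [Algebra ℚ K] [Algebra K Kbar]

theorem main_isAlgebraic : Algebra.IsAlgebraic K Kbar := by
  have : IsScalarTower ℚ K Kbar := IsScalarTower.of_algebraMap_eq fun q => by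
    rw [eq_ratCast, eq_ratCast, map_ratCast]
  have : Algebra.IsAlgebraic ℚ Kbar := AlgebraicClosure.isAlgebraic ℚ
  exact Algebra.IsAlgebraic.tower_top (K := ℚ) K

theorem main_isIntegral : (algebraMap K Kbar).IsIntegral := by
  have := main_isAlgebraic K
  intro c
  exact (Algebra.IsAlgebraic.isAlgebraic (R := K) c).isIntegral

omit [Algebra K Kbar] in
theorem main_charZero : CharZero K := algebraRat.charZero K

theorem bcY_const (L : ℕ) (W : LaurentSeries Kbar) (c : K) :
    bcY K L W (algebraMap K (FY K L W) c) = algebraMap Kbar (FYb L W) (algebraMap K Kbar c) := by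
  apply Subtype.ext
  exact S18.Descent.coeffMap_algebraMap' _ c

theorem bcX_const (L : ℕ) (c : K) :
    bcX K L (algebraMap K (FK K L) c) = algebraMap Kbar (FN L) (algebraMap K Kbar c) :=
  S18.Descent.baseChangeMap_algebraMap _ c

theorem bcY_algebraMap' (L : ℕ) (W : LaurentSeries Kbar) (f : FK K L) :
    bcY K L W (algebraMap (FK K L) (FY K L W) f) = ιb L W (bcX K L f) := by
  rw [bcY_algebraMap, algebraMap_FYb_eq]

/-- `FN L` is spanned over `ℚ̄` by the image of `FK K L`. -/
theorem span_bcX (L : ℕ) :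
    @Submodule.span Kbar (FN L) _ _ Algebra.toModule (Set.range (bcX K L) : Set (FN L)) = ⊤ := by
  have := main_isAlgebraic K
  rw [eq_top_iff]
  rintro ⟨x, hx⟩ -
  have h := mem_span_of_mem_laurentBaseChange (L := K) (L' := Kbar)
    (modularFunctionFieldFull L) hx
  have key : ∀ z ∈ Submodule.span Kbar ((coeffMap (algebraMap K Kbar)) ''
      (laurentBaseChange K (modularFunctionFieldFull L) : Set (LaurentSeries K))),
      ∃ y : FN L, (y : LaurentSeries Kbar) = z ∧
        y ∈ @Submodule.span Kbar (FN L) _ _ Algebra.toModule (Set.range (bcX K L) : Set (FN L)) := by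
    intro z hz
    induction hz using Submodule.span_induction with
    | mem z hz =>
      obtain ⟨t, ht, rfl⟩ := hz
      exact ⟨bcX K L ⟨t, ht⟩, rfl, Submodule.subset_span ⟨_, rfl⟩⟩
    | zero => exact ⟨0, rfl, zero_mem _⟩
    | add z z' _ _ hz hz' =>
      obtain ⟨y, rfl, hy⟩ := hz
      obtain ⟨y', rfl, hy'⟩ := hz'
      exact ⟨y + y', rfl, add_mem hy hy'⟩
    | smul a z _ hz =>
      obtain ⟨y, rfl, hy⟩ := hz
      refine ⟨algebraMap Kbar (FN L) a * y, ?_, ?_⟩
      · rw [span_smul_eq]
        rfl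
      · rw [← Algebra.smul_def]
        exact Submodule.smul_mem _ a hy
  obtain ⟨y, hyx, hy⟩ := key x h
  have : y = ⟨x, hx⟩ := Subtype.ext hyx
  rw [← this]
  exact hy

theorem isFF1_FK (L : ℕ) [NeZero L] : IsFF1 K (FK K L) :=
  haveI : IsFF1 Kbar (laurentBaseChange Kbar (modularFunctionFieldFull L)) := S24.Export.isFF1 L
  S18.Descent.isFF1_of_baseChange (L' := Kbar) (S18.Descent.finite_divisorExpansions L) rfl

end K

theorem U_ne_zero_of_pow {p L : ℕ} {U : FN L} {W : LaurentSeries Kbar}
    (hpow : W ^ p = (U : LaurentSeries Kbar)) (hnrm : W.leadingCoeff = 1) : U ≠ 0 := by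
  rintro rfl
  have hW0 : W ≠ 0 := by
    intro h0
    rw [h0] at hnrm
    simp at hnrm
  exact pow_ne_zero p hW0 hpow

variable (K : Type) [Field K] [Algebra ℚ K] [Algebra K Kbar]
  (p L : ℕ) [NeZero L] (hp : p ≠ 0) (U : FN L) (W : LaurentSeries Kbar)
  [FiniteDimensional (FK K L) (FY K L W)]

include hp in
/-- **(H1)** -/
theorem horUnr (hpow : W ^ p = (U : LaurentSeries Kbar)) (hnrm : W.leadingCoeff = 1)
    (hkum : E.IsKum L p U)
    (hspan : Submodule.span Kbar (Set.range (bcY K L W) : Set (FYb L W)) = ⊤) :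
    PL.HorUnr K (FK K L) (FY K L W) := by
  have := main_charZero K
  have : IsFF1 Kbar (FN L) := S24.Export.isFF1 L
  have : IsFF1 K (FK K L) := isFF1_FK K L
  have : IsFF1 K (FY K L W) := isFF1_of_finite K (FK K L) (FY K L W)
  have : IsFF1 Kbar (FYb L W) := isFF1_FYb L p hp U W hpow
  exact horUnr_abs (algebraMap K Kbar) (bcX K L) (bcY K L W) (ιb L W)
    (bcX_const K L) (bcY_const K L W) (ιb_algebraMap L W)
    (bcY_algebraMap' K L W) (main_isIntegral K) (span_bcX K L) hspan
    (Wb L W) p hp U (U_ne_zero_of_pow hpow hnrm) (Wb_pow L p U W hpow) (exists_repr L p hp U W hpow)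
    (isIntegralElem_ιb L p hp U W hpow) hkum

include hp in
/-- **(H1')** : the form consumed by `PL.pl_main'`. -/
theorem horE1 (hpow : W ^ p = (U : LaurentSeries Kbar)) (hnrm : W.leadingCoeff = 1)
    (hkum : E.IsKum L p U)
    (hspan : Submodule.span Kbar (Set.range (bcY K L W) : Set (FYb L W)) = ⊤) :
    PL.HorE1 K (FK K L) (FY K L W) := by
  have := main_charZero K
  have : IsFF1 Kbar (FN L) := S24.Export.isFF1 L
  have : IsFF1 K (FK K L) := isFF1_FK K L
  have : IsFF1 K (FY K L W) := isFF1_of_finite K (FK K L) (FY K L W)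
  have : IsFF1 Kbar (FYb L W) := isFF1_FYb L p hp U W hpow
  exact horE1_abs (algebraMap K Kbar) (bcX K L) (bcY K L W) (ιb L W)
    (bcX_const K L) (bcY_const K L W) (ιb_algebraMap L W)
    (bcY_algebraMap' K L W) (main_isIntegral K) (span_bcX K L) hspan
    (Wb L W) p hp U (U_ne_zero_of_pow hpow hnrm) (Wb_pow L p U W hpow) (exists_repr L p hp U W hpow)
    (isIntegralElem_ιb L p hp U W hpow) hkum

include hp in
/-- **(H2)** -/
theorem horDiv (hpow : W ^ p = (U : LaurentSeries Kbar))
    (hspan : Submodule.span Kbar (Set.range (bcY K L W) : Set (FYb L W)) = ⊤)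
    (u : FY K L W) (hu : u ≠ 0) (U₁ : FN L) (hU₁ : E.IsKum L p U₁) (b : FYb L W)
    (hub : bcY K L W u = algebraMap (FN L) (FYb L W) U₁ * b ^ p) : S36.BP.HorDiv K p u := by
  have := main_charZero K
  have : IsFF1 Kbar (FN L) := S24.Export.isFF1 L
  have : IsFF1 K (FK K L) := isFF1_FK K L
  have : IsFF1 K (FY K L W) := isFF1_of_finite K (FK K L) (FY K L W)
  have : IsFF1 Kbar (FYb L W) := isFF1_FYb L p hp U W hpow
  rw [algebraMap_FYb_eq] at hub
  exact horDiv_abs (algebraMap K Kbar) (bcY K L W) (ιb L W)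
    (bcY_const K L W) (ιb_algebraMap L W) (main_isIntegral K) hspan
    (isIntegralElem_ιb L p hp U W hpow) p hp u hu U₁ hU₁ b hub

end Fermat.Agent.S44.X.Cover.Hor

end
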