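/-
S44, node X, block COVER, sub-block C-HOR (helper59): `NodeHor` (statement of `Cover/Nodes.lean`)
from `NodeField`.
-/
import Mathlib
import Fermat.Agent.S44.X.Cover.Nodes
import Fermat.Agent.S44.X.Cover.Hor.Main
import Fermat.Agent.S44.X.PL.Artin

set_option autoImplicit false

noncomputable section

namespace Fermat.Agent.S44.X.Cover

open ModularCurve AlgebraicCurve Fermat.Agent.S24 Fermat.Agent.GAL
open Fermat.Agent.BAD.Bridge Fermat.Agent.S18

theorem nodeHor_of (hF : NodeField) : NodeHor := by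
  intro K _ _ _ I p L _ hp hfix U W R
  have : NeZero p := ⟨hp.ne_zero⟩
  have : NeZero (p : Kbar) := ⟨Nat.cast_ne_zero.2 hp.ne_zero⟩
  have : Fact p.Prime := ⟨hp⟩
  obtain ⟨ζ, hζ⟩ := HasEnoughRootsOfUnity.exists_primitiveRoot Kbar p
  obtain ⟨-, hspan, σ, γ, -, hpow, hne, hfixσ, -, -⟩ := hF K I p L hp hfix U W R ζ hζ
  obtain ⟨hfd, -, -⟩ := PL.cyc_of_fixed σ hpow hne hfixσ
  refine ⟨Hor.horE1 K p L hp.ne_zero U W R.pow R.nrm R.kum hspan, ?_⟩
  intro u U₁ b hu hU₁ hub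
  exact Hor.horDiv K p L hp.ne_zero U W R.pow hspan u hu U₁ hU₁ b hub

end Fermat.Agent.S44.X.Cover

end
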